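import Fermat.Agent.P2.Ell.Block8
import Fermat.Agent.P2.Tate.Eta

/-!
# P2, block 8: main theorem
-/

set_option autoImplicit false

noncomputable section

namespace Fermat.Agent.P2.Ell

open Fermat.Agent.P2.Sel Fermat.Agent.P2

theorem stPtsProp : StPtsProp := by
  intro W hΔ hss q hq hqΔ
  obtain ⟨s, hs, h⟩ := TateLoc.stPts W hss hΔ hq hqΔ
  exact ⟨s, hs, h⟩

/-- **Block 8.** -/
theorem block8 : Block8Out := block8Out_of stPtsProp

end Fermat.Agent.P2.Ell
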