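import Fermat.Agent.P2.Ell.Rep

/-!
# P2, block 8: the record `GalData` of the auxiliary curve, from the Steinberg relation on points
-/

set_option autoImplicit false

noncomputable section

namespace Fermat.Agent.P2.Ell

open Fermat.Agent.P2.Sel Fermat.Agent.P2

local notation "Ω" => AlgebraicClosure ℚ

/-- The local input: the Steinberg relation on torsion points at multiplicative primes. -/
def StPtsProp : Prop :=
  ∀ W : WeierstrassCurve ℤ, W.Δ ≠ 0 → W.IsSemistableModel → ∀ q : ℕ, q.Prime → (q : ℤ) ∣ W.Δ →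
    ∃ s : ℤ, (s = 1 ∨ s = -1) ∧ StPts W q s

theorem mem_badSet {W : WeierstrassCurve ℤ} (hΔ : W.Δ ≠ 0) (q : ℕ) :
    q ∈ badSet W ↔ q.Prime ∧ (q : ℤ) ∣ W.Δ := by
  rw [badSet, Nat.mem_primeFactors, Int.natCast_dvd]
  exact ⟨fun h => ⟨h.1, h.2.1⟩, fun h => ⟨h.1, h.2, Int.natAbs_ne_zero.mpr hΔ⟩⟩

theorem nonempty_galData {W : WeierstrassCurve ℤ} (hW : Curve W)
    (hst : ∀ q : ℕ, q.Prime → (q : ℤ) ∣ W.Δ → ∃ s : ℤ, (s = 1 ∨ s = -1) ∧ StPts W q s) :
    Nonempty (GalData (badSet W) fun ℓ => W.apOfModel ℓ) := by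
  classical
  have hΔ : W.Δ ≠ 0 := hW.neg.ne
  have h2 : 2 ∈ badSet W := (mem_badSet hΔ 2).mpr ⟨Nat.prime_two, by exact_mod_cast hW.two⟩
  have hs : ∀ q : ℕ, ∃ s : ℤ, (s = 1 ∨ s = -1) ∧ (q ∈ badSet W → StPts W q s) := by
    intro q
    by_cases hq : q ∈ badSet W
    · obtain ⟨s, h1, h2⟩ := hst q ((mem_badSet hΔ q).mp hq).1 ((mem_badSet hΔ q).mp hq).2
      exact ⟨s, h1, fun _ => h2⟩
    · exact ⟨1, Or.inl rfl, fun h => absurd h hq⟩
  choose s hs1 hs2 using hs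
  exact ⟨{
    ρ := rhoT hΔ
    cont := cont hΔ
    cyc := cyc hΔ
    unram := fun ℓ hℓ hℓS P hP g hg => unram hΔ hℓ hℓS h2 hP g hg
    trace_frob := fun ℓ hℓ hℓS P hP φ hφ => trace_frob hΔ hℓ hℓS h2 hP hφ
    s := s
    s_eq := hs1
    st := fun q hq P hP => st hΔ (hs2 q hq) hP
    ram := fun q hq P hP => by
      obtain ⟨hqp, hqd⟩ := (mem_badSet hΔ q).mp hq
      obtain ⟨t, ht, ht1⟩ := exists_inertia_ne_one hΔ hqp (hW.odd q hqp hqd) hP
      obtain ⟨i, j, hij⟩ := exists_not_dvd hΔ ht1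
      exact ⟨t, ht, i, j, hij⟩
    conj := exists_not_dvd hΔ (rho2_conj_ne_one hW.neg)
    surj := surj_mod_two hΔ hW.neg hW.irr
    disc := disc hW.neg hW.odd }⟩

/-- **Block 8** from the local input. -/
theorem block8Out_of (h : StPtsProp) : Block8Out := fun W hW =>
  nonempty_galData hW fun q hq hqd => h W hW.neg.ne hW.ss q hq hqd

end Fermat.Agent.P2.Ell
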