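import Fermat.Agent.P2.Ell.TwoTors
import Fermat.Agent.P2.Sel.Defs
import Fermat.Agent.EllTate.Main
import Fermat.Agent.DR.InertiaValue

/-!
# P2, block 8: the mod 2 representation of an integral Weierstrass model

* `V2 W` = `W[2]`, `rho2 W` the representation;
* `exists_sqrt_disc`: a square root `δ` of `Δ` on which `σ` acts by the sign of `ρ σ`;
* `rho2_conj_ne_one` (`Δ < 0`), `rho2_surj` (irreducible and `Δ < 0`);
* `exists_inertia_ne_one` (`v_q(Δ)` odd);
* `hyp`: the standing hypotheses `Sel.Hyp` of block 2a.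
-/

set_option autoImplicit false

open WeierstrassCurve WeierstrassCurve.Affine WeierstrassCurve.Affine.Point

noncomputable section

namespace Fermat.Agent.P2.Ell

open Fermat.Agent.P2.Sel

local notation "Ω" => AlgebraicClosure ℚ

/-- the curve over `ℚ` -/
abbrev WQ (W : WeierstrassCurve ℤ) : WeierstrassCurve ℚ := W.map (Int.castRingHom ℚ)

/-- the group of points over `Qbar` -/
abbrev Pt (W : WeierstrassCurve ℤ) : Type := ((WQ W)⁄Ω).Point

/-- `W[2]` -/
abbrev V2 (W : WeierstrassCurve ℤ) : Type := Submodule.torsionBy ℤ (Pt W) (2 : ℕ)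

/-- the representation on `W[2]` -/
def rho2 (W : WeierstrassCurve ℤ) : Representation (ZMod 2) GQ (V2 W) :=
  galoisRepModuleEnd (K := Ω) ℚ (WQ W) 2

variable {W : WeierstrassCurve ℤ}

@[simp] theorem rho2_apply (σ : GQ) (x : V2 W) : rho2 W σ x = σ • x := rfl

theorem rho2_apply_coe (σ : GQ) (x : V2 W) : ((rho2 W σ x : V2 W) : Pt W) = σ • (x : Pt W) := rfl

theorem two_ne : (2 : Ω) ≠ 0 := two_ne_zero

theorem two_ne' : ((2 : ℕ) : Ω) ≠ 0 := by rw [Nat.cast_ofNat]; exact two_ne

theorem V2_add_self (x : V2 W) : (x : Pt W) + x = 0 := by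
  have h := (Submodule.mem_torsionBy_iff ((2 : ℕ) : ℤ) x.1).1 x.2
  rw [Nat.cast_smul_eq_nsmul, two_nsmul] at h
  exact h

theorem V2_add_self' (x : V2 W) : x + x = 0 := Subtype.ext (V2_add_self x)

theorem V2_coe_ne {x : V2 W} (h : x ≠ 0) : (x : Pt W) ≠ 0 := fun h' => h (Subtype.ext h')

/-- the square root of the discriminant attached to two points of order two -/
def dV (x y : V2 W) : Ω := del (x : Pt W) (y : Pt W)

theorem dV_swap (x y : V2 W) : dV y x = - dV x y := del_swap _ _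

theorem dV_add_right (x y : V2 W) : dV x (x + y) = - dV x y := by
  have h : (x : Pt W) + ((x : Pt W) + y) = y := by
    rw [← add_assoc, V2_add_self, zero_add]
  rw [dV, dV, Submodule.coe_add, del, del, h]
  ring

theorem dV_smul (σ : GQ) (x y : V2 W) : dV (σ • x) (σ • y) = σ (dV x y) :=
  del_smul σ (x : Pt W) (y : Pt W)

variable (hΔ : W.Δ ≠ 0)

theorem dV_sq {x y : V2 W} (hx : x ≠ 0) (hy : y ≠ 0) (hxy : x ≠ y) :
    dV x y ^ 2 = ((W.Δ : ℤ) : Ω) := by
  have h := del_sq two_ne (V2_coe_ne hx) (V2_add_self x) (V2_coe_ne hy) (V2_add_self y)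
    (fun h => hxy (Subtype.ext h))
  have e : WeierstrassCurve.Δ ((WQ W)⁄Ω) = ((W.Δ : ℤ) : Ω) := by
    change WeierstrassCurve.Δ ((WQ W).map (algebraMap ℚ Ω)) = _
    rw [WeierstrassCurve.map_Δ, WeierstrassCurve.map_Δ]
    simp
  rw [← e]
  exact h

include hΔ in
theorem dV_ne_zero {x y : V2 W} (hx : x ≠ 0) (hy : y ≠ 0) (hxy : x ≠ y) : dV x y ≠ 0 := by
  intro h
  have h1 := dV_sq hx hy hxy
  rw [h, zero_pow two_ne_zero] at h1
  exact hΔ (by exact_mod_cast h1.symm)

include hΔ in
theorem finrank_V2 : Module.finrank (ZMod 2) (V2 W) = 2 := by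
  have := EllTate.isElliptic_of_Δ_ne_zero hΔ
  have : WeierstrassCurve.IsElliptic ((WQ W)⁄Ω) := EllTorsion.isElliptic_baseChange (WQ W)
  exact EllTorsion.finrank_torsionBy (WQ W) (K := Ω) (n := 2) two_ne' (by norm_num)

include hΔ in
theorem card_V2 : Nat.card (V2 W) = 4 := by
  have := EllTate.isElliptic_of_Δ_ne_zero hΔ
  have : WeierstrassCurve.IsElliptic ((WQ W)⁄Ω) := EllTorsion.isElliptic_baseChange (WQ W)
  exact EllTorsion.card_torsionBy (WQ W) (K := Ω) (n := 2) two_ne'

theorem V2_add_ne {x y : V2 W} (h : x ≠ y) : x + y ≠ 0 := by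
  intro h0
  apply h
  rw [← add_right_cancel_iff (a := y), h0, V2_add_self']

include hΔ in
theorem V2_cases {a b : V2 W} (ha : a ≠ 0) (hb : b ≠ 0) (hab : a ≠ b) (x : V2 W) (hx : x ≠ 0) :
    x = a ∨ x = b ∨ x = a + b := by
  classical
  have hfin : Finite (V2 W) := Nat.finite_of_card_ne_zero (by rw [card_V2 hΔ]; norm_num)
  have : Fintype (V2 W) := Fintype.ofFinite _
  have hcard : Fintype.card (V2 W) = 4 := by rw [← Nat.card_eq_fintype_card]; exact card_V2 hΔ
  have h1 : a + b ≠ a := fun h => hb (by simpa using h)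
  have h2 : a + b ≠ b := fun h => ha (by simpa using h)
  have h3 : a + b ≠ 0 := V2_add_ne hab
  have hS : ({0, a, b, a + b} : Finset (V2 W)) = Finset.univ := by
    apply Finset.eq_univ_of_card
    rw [hcard]
    rw [Finset.card_insert_of_notMem, Finset.card_insert_of_notMem, Finset.card_insert_of_notMem,
      Finset.card_singleton]
    · simpa using h2.symm
    · simp only [Finset.mem_insert, Finset.mem_singleton, not_or]
      exact ⟨hab, h1.symm⟩
    · simp only [Finset.mem_insert, Finset.mem_singleton, not_or]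
      exact ⟨ha.symm, hb.symm, h3.symm⟩
  have hm : x ∈ ({0, a, b, a + b} : Finset (V2 W)) := by rw [hS]; exact Finset.mem_univ _
  simp only [Finset.mem_insert, Finset.mem_singleton] at hm
  rcases hm with h | h | h | h
  · exact absurd h hx
  · exact Or.inl h
  · exact Or.inr (Or.inl h)
  · exact Or.inr (Or.inr h)

include hΔ in
theorem exists_pair : ∃ a b : V2 W, a ≠ 0 ∧ b ≠ 0 ∧ a ≠ b := by
  classical
  have hfin : Finite (V2 W) := Nat.finite_of_card_ne_zero (by rw [card_V2 hΔ]; norm_num)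
  have : Fintype (V2 W) := Fintype.ofFinite _
  have hcard : Fintype.card (V2 W) = 4 := by rw [← Nat.card_eq_fintype_card]; exact card_V2 hΔ
  obtain ⟨a, ha⟩ : ∃ a : V2 W, a ∉ ({0} : Finset (V2 W)) := by
    by_contra hc
    push Not at hc
    have := Finset.card_le_card (fun x _ => hc x : (Finset.univ : Finset (V2 W)) ⊆ {0})
    rw [Finset.card_univ, hcard, Finset.card_singleton] at this
    omega
  obtain ⟨b, hb⟩ : ∃ b : V2 W, b ∉ ({0, a} : Finset (V2 W)) := by
    by_contra hc
    push Not at hc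
    have := Finset.card_le_card (fun x _ => hc x : (Finset.univ : Finset (V2 W)) ⊆ {0, a})
    have h2 : ({0, a} : Finset (V2 W)).card ≤ 2 := Finset.card_le_two
    rw [Finset.card_univ, hcard] at this
    omega
  simp only [Finset.mem_singleton] at ha
  simp only [Finset.mem_insert, Finset.mem_singleton, not_or] at hb
  exact ⟨a, b, ha, hb.1, Ne.symm hb.2⟩

theorem smul_inj {σ : GQ} {x y : V2 W} (h : σ • x = σ • y) : x = y := by
  have := congrArg (fun z => σ⁻¹ • z) h
  simpa only [inv_smul_smul] using this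

/-- The action of `σ` on `√Δ` is the sign of the permutation of the points of order two. -/
theorem smul_dV_cases {a b : V2 W} (ha : a ≠ 0) (hb : b ≠ 0) (hab : a ≠ b) (hΔ : W.Δ ≠ 0)
    (σ : GQ) :
    (rho2 W σ = 1 ∧ σ (dV a b) = dV a b) ∨
    (rho2 W σ ≠ 1 ∧ rho2 W σ * rho2 W σ = 1 ∧ σ (dV a b) = - dV a b) ∨
    (rho2 W σ * rho2 W σ ≠ 1 ∧ rho2 W σ * rho2 W σ * rho2 W σ = 1 ∧ σ (dV a b) = dV a b) := by
  have hab0 : a + b ≠ 0 := V2_add_ne hab
  have h1 : a + b ≠ a := fun h => hb (by simpa using h)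
  have h2 : a + b ≠ b := fun h => ha (by simpa using h)
  have hsa : σ • a ≠ 0 := fun h => ha (smul_inj (σ := σ) (by rw [h, smul_zero]))
  have hsb : σ • b ≠ 0 := fun h => hb (smul_inj (σ := σ) (by rw [h, smul_zero]))
  have hsab : σ • a ≠ σ • b := fun h => hab (smul_inj h)
  have key : ∀ T T' : Module.End (ZMod 2) (V2 W), T a = T' a → T b = T' b → T = T' := by
    intro T T' e1 e2
    ext1 x
    by_cases hx : x = 0
    · rw [hx, _root_.map_zero, _root_.map_zero]
    · rcases V2_cases hΔ ha hb hab x hx with rfl | rfl | rfl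
      · exact e1
      · exact e2
      · rw [map_add, map_add, e1, e2]
  have k1 : a + (a + b) = b := by rw [← add_assoc, V2_add_self', zero_add]
  have k2 : (a + b) + b = a := by rw [add_assoc, V2_add_self', add_zero]
  have k3 : (a + b) + a = b := by rw [add_comm, k1]
  have k4 : b + (a + b) = a := by rw [add_comm, k2]
  rw [← dV_smul]
  rcases V2_cases hΔ ha hb hab (σ • a) hsa with e1 | e1 | e1 <;>
  rcases V2_cases hΔ ha hb hab (σ • b) hsb with e2 | e2 | e2
  · exact absurd (e1.trans e2.symm) hsab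
  · left
    refine ⟨key _ _ ?_ ?_, by rw [e1, e2]⟩
    · rw [rho2_apply, e1]; rfl
    · rw [rho2_apply, e2]; rfl
  · right; left
    refine ⟨?_, key _ _ ?_ ?_, ?_⟩
    · intro h
      have := LinearMap.congr_fun h b
      rw [rho2_apply, e2] at this
      exact h2 this
    · rw [Module.End.mul_apply, rho2_apply, rho2_apply, e1, e1]; rfl
    · rw [Module.End.mul_apply, rho2_apply, rho2_apply, e2, smul_add, e1, e2, k1]; rfl
    · rw [e1, e2, dV_add_right]
  · right; left
    refine ⟨?_, key _ _ ?_ ?_, ?_⟩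
    · intro h
      have := LinearMap.congr_fun h a
      rw [rho2_apply, e1] at this
      exact hab this.symm
    · rw [Module.End.mul_apply, rho2_apply, rho2_apply, e1, e2]; rfl
    · rw [Module.End.mul_apply, rho2_apply, rho2_apply, e2, e1]; rfl
    · rw [e1, e2, dV_swap]
  · exact absurd (e1.trans e2.symm) hsab
  · right; right
    refine ⟨?_, key _ _ ?_ ?_, ?_⟩
    · intro h
      have := LinearMap.congr_fun h a
      rw [Module.End.mul_apply, rho2_apply, rho2_apply, e1, e2] at this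
      exact h1 this
    · rw [Module.End.mul_apply, Module.End.mul_apply, rho2_apply, rho2_apply, rho2_apply, e1, e2,
        smul_add, e1, e2, k4]; rfl
    · rw [Module.End.mul_apply, Module.End.mul_apply, rho2_apply, rho2_apply, rho2_apply, e2,
        smul_add, e1, e2, k4, e1]; rfl
    · rw [e1, e2, add_comm a b, dV_add_right, dV_swap, neg_neg]
  · right; right
    refine ⟨?_, key _ _ ?_ ?_, ?_⟩
    · intro h
      have := LinearMap.congr_fun h a
      rw [Module.End.mul_apply, rho2_apply, rho2_apply, e1, smul_add, e1, e2, k3] at this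
      exact hab this.symm
    · rw [Module.End.mul_apply, Module.End.mul_apply, rho2_apply, rho2_apply, rho2_apply, e1,
        smul_add, e1, e2, k3, e2]; rfl
    · rw [Module.End.mul_apply, Module.End.mul_apply, rho2_apply, rho2_apply, rho2_apply, e2, e1,
        smul_add, e1, e2, k3]; rfl
    · rw [e1, e2, dV_swap, dV_add_right, neg_neg]
  · right; left
    refine ⟨?_, key _ _ ?_ ?_, ?_⟩
    · intro h
      have := LinearMap.congr_fun h a
      rw [rho2_apply, e1] at this
      exact h1 this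
    · rw [Module.End.mul_apply, rho2_apply, rho2_apply, e1, smul_add, e1, e2, k2]; rfl
    · rw [Module.End.mul_apply, rho2_apply, rho2_apply, e2, e2]; rfl
    · rw [e1, e2, dV_swap, add_comm a b, dV_add_right, neg_neg, dV_swap]
  · exact absurd (e1.trans e2.symm) hsab

/-- **A square root of `Δ` on which `G_ℚ` acts by the sign character of `W[2]`.** -/
theorem exists_sqrt_disc (hΔ : W.Δ ≠ 0) : ∃ δ : Ω, δ ≠ 0 ∧ δ ^ 2 = ((W.Δ : ℤ) : Ω) ∧ ∀ σ : GQ,
    (rho2 W σ = 1 ∧ σ δ = δ) ∨
    (rho2 W σ ≠ 1 ∧ rho2 W σ * rho2 W σ = 1 ∧ σ δ = - δ) ∨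
    (rho2 W σ * rho2 W σ ≠ 1 ∧ rho2 W σ * rho2 W σ * rho2 W σ = 1 ∧ σ δ = δ) := by
  obtain ⟨a, b, ha, hb, hab⟩ := exists_pair hΔ
  exact ⟨dV a b, dV_ne_zero hΔ ha hb hab, dV_sq ha hb hab, fun σ =>
    smul_dV_cases ha hb hab hΔ σ⟩

/-- complex conjugation acts nontrivially on `W[2]` if `Δ < 0` -/
theorem rho2_conj_ne_one (hneg : W.Δ < 0) : rho2 W complexConjugation ≠ 1 := by
  obtain ⟨δ, hδ0, hδ, h⟩ := exists_sqrt_disc (W := W) hneg.ne
  intro h1
  have hc : complexConjugation δ = δ := by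
    rcases h complexConjugation with h | h | h
    · exact h.2
    · exact absurd h1 h.1
    · exact h.2.2
  have h2 := complexEmbedding_complexConjugation δ
  rw [hc] at h2
  have h3 : complexEmbedding δ ^ 2 = ((W.Δ : ℤ) : ℂ) := by
    rw [← map_pow, hδ, map_intCast]
  obtain ⟨r, hr⟩ := Complex.conj_eq_iff_real.mp h2.symm
  rw [hr] at h3
  have h4 : r ^ 2 = ((W.Δ : ℤ) : ℝ) := by exact_mod_cast h3
  have h5 : ((W.Δ : ℤ) : ℝ) < 0 := by exact_mod_cast hneg
  nlinarith [sq_nonneg r]

/-- complex conjugation is a transposition -/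
theorem rho2_conj_sq : rho2 W complexConjugation * rho2 W complexConjugation = 1 := by
  rw [← map_mul, complexConjugation_mul_self, map_one]

/-- `G_ℚ` acts transitively on the nonzero vectors if `W[2]` is irreducible. -/
theorem exists_smul_eq (hΔ : W.Δ ≠ 0) (hirr : W.ModRepIsIrreducible 2) {x y : V2 W} (hx : x ≠ 0)
    (hy : y ≠ 0) : ∃ g : GQ, g • x = y := by
  classical
  -- no nonzero vector is fixed
  have hfix : ∀ z : V2 W, z ≠ 0 → ∃ g : GQ, g • z ≠ z := by
    intro z hz
    by_contra hc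
    push Not at hc
    have hst : Affine.Point.IsGaloisStable (K := Ω) (W' := WQ W) ℚ
        (Submodule.span (ZMod 2) {z} : Submodule (ZMod 2) (V2 W)) := by
      intro σ u hu
      obtain ⟨c, rfl⟩ := Submodule.mem_span_singleton.mp hu
      have : σ • (c • z) = c • z := by
        rw [smul_comm, hc]
      rw [this]
      exact Submodule.smul_mem _ _ (Submodule.mem_span_singleton_self z)
    rcases hirr.2 _ hst with h | h
    · exact hz (by simpa using (Submodule.span_singleton_eq_bot.mp h))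
    · have h1 := finrank_V2 (W := W) hΔ
      have h2 : Module.finrank (ZMod 2) (Submodule.span (ZMod 2) {z} : Submodule (ZMod 2) (V2 W)) ≤ 1 :=
        (finrank_span_singleton hz).le
      rw [h, finrank_top, h1] at h2
      omega
  by_cases hxy : x = y
  · exact ⟨1, by rw [one_smul, hxy]⟩
  have hz0 : x + y ≠ 0 := V2_add_ne hxy
  obtain ⟨g, hg⟩ := hfix x hx
  have hgx : g • x ≠ 0 := fun h => hx (smul_inj (σ := g) (by rw [h, smul_zero]))
  rcases V2_cases hΔ hx hy hxy (g • x) hgx with h | h | h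
  · exact absurd h hg
  · exact ⟨g, h⟩
  · -- `g x = x + y`
    by_cases hgy : ∃ k : GQ, k • (x + y) = y
    · obtain ⟨k, hk⟩ := hgy
      exact ⟨k * g, by rw [mul_smul, h, hk]⟩
    · -- then `y` is fixed by everything
      exfalso
      push Not at hgy
      have horb : ∀ k : GQ, k • x ≠ y := by
        intro k hk
        apply hgy (k * g⁻¹)
        rw [mul_smul, ← h, inv_smul_smul, hk]
      obtain ⟨k, hk⟩ := hfix y hy
      have hky : k • y ≠ 0 := fun h => hy (smul_inj (σ := k) (by rw [h, smul_zero]))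
      rcases V2_cases hΔ hx hy hxy (k • y) hky with h' | h' | h'
      · exact horb k⁻¹ (by rw [← h', inv_smul_smul])
      · exact hk h'
      · exact hgy k⁻¹ (by rw [← h', inv_smul_smul])

/-- **The image of `ρ` is `GL(W[2])`** if `W[2]` is irreducible and `Δ < 0`. -/
theorem rho2_surj (hneg : W.Δ < 0) (hirr : W.ModRepIsIrreducible 2) (A : V2 W ≃ₗ[ZMod 2] V2 W) :
    ∃ g : GQ, rho2 W g = A.toLinearMap := by
  have hΔ : W.Δ ≠ 0 := hneg.ne
  obtain ⟨a, b, ha, hb, hab⟩ := exists_pair hΔ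
  have hab0 : a + b ≠ 0 := V2_add_ne hab
  have h1 : a + b ≠ a := fun h => hb (by simpa using h)
  have h2 : a + b ≠ b := fun h => ha (by simpa using h)
  have hAa : A a ≠ 0 := fun h => ha (by simpa using h)
  have hAb : A b ≠ 0 := fun h => hb (by simpa using h)
  have key : ∀ T T' : Module.End (ZMod 2) (V2 W), T a = T' a → T b = T' b → T = T' := by
    intro T T' e1 e2
    ext1 x
    by_cases hx : x = 0
    · rw [hx, _root_.map_zero, _root_.map_zero]
    · rcases V2_cases hΔ ha hb hab x hx with rfl | rfl | rfl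
      · exact e1
      · exact e2
      · rw [map_add, map_add, e1, e2]
  obtain ⟨g, hg⟩ := exists_smul_eq hΔ hirr ha hAa
  -- `g⁻¹ A b ∈ {b, a + b}`
  have hx0 : g⁻¹ • A b ≠ 0 := fun h => hAb (smul_inj (σ := g⁻¹) (by rw [h, smul_zero]))
  have hxa : g⁻¹ • A b ≠ a := by
    intro h
    have : A b = A a := by rw [← hg, ← h, smul_inv_smul]
    exact hab (A.injective this).symm
  rcases V2_cases hΔ ha hb hab _ hx0 with h | h | h
  · exact absurd h hxa
  · refine ⟨g, key _ _ ?_ ?_⟩
    · exact hg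
    · change g • b = A b
      rw [← smul_inv_smul g (A b), h]
  · -- we need `t` fixing `a` and exchanging `b` and `a + b`
    obtain ⟨t, hta, htb⟩ : ∃ t : GQ, t • a = a ∧ t • b = a + b := by
      set c : GQ := complexConjugation with hc
      have hc1 := rho2_conj_ne_one hneg
      have hc2 := rho2_conj_sq (W := W)
      -- the fixed vector of `c`
      obtain ⟨f, hf0, hf⟩ : ∃ f : V2 W, f ≠ 0 ∧ c • f = f := by
        by_contra hno
        push Not at hno
        have hcc : ∀ x : V2 W, c • (c • x) = x := fun x => LinearMap.congr_fun hc2 x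
        -- `a + c a` is fixed
        have hca : a + c • a ≠ 0 := V2_add_ne (fun h => hno a ha h.symm)
        apply hno (a + c • a) hca
        rw [smul_add, hcc, add_comm]
      obtain ⟨k, hk⟩ := exists_smul_eq hΔ hirr hf0 ha
      refine ⟨k * c * k⁻¹, ?_, ?_⟩
      · rw [mul_smul, mul_smul, ← hk, inv_smul_smul, hf]
      · have ht0 : (k * c * k⁻¹) • b ≠ 0 := fun h => hb (smul_inj (σ := k * c * k⁻¹)
          (by rw [h, smul_zero]))
        have hta : (k * c * k⁻¹) • a = a := by rw [mul_smul, mul_smul, ← hk, inv_smul_smul, hf]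
        rcases V2_cases hΔ ha hb hab _ ht0 with h | h | h
        · exact absurd (smul_inj (σ := k * c * k⁻¹) (hta.trans h.symm)) hab
        · exfalso
          apply hc1
          have h3 : rho2 W (k * c * k⁻¹) = 1 := key _ _ hta h
          have h4 : rho2 W c = rho2 W k⁻¹ * rho2 W (k * c * k⁻¹) * rho2 W k := by
            rw [← map_mul, ← map_mul]
            congr 1
            group
          rw [h4, h3, mul_one, ← map_mul, inv_mul_cancel, map_one]
        · exact h
    refine ⟨g * t, key _ _ ?_ ?_⟩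
    · change (g * t) • a = A a
      rw [mul_smul, hta, hg]
    · change (g * t) • b = A b
      rw [mul_smul, htb, ← smul_inv_smul g (A b), h]

/-- integers prime to `q` are units at places over `q` -/
theorem valuation_int_eq_one {P : ValuationSubring Ω} {q : ℕ} (hq : q.Prime)
    (hP : P.LiesOverPrime q) {m : ℤ} (hm : ¬ (q : ℤ) ∣ m) : P.valuation (m : Ω) = 1 := by
  have hA : P.valuation (q : Ω) < 1 := (P.mem_nonunits_iff).mp hP
  have hint : ∀ n : ℤ, P.valuation (n : Ω) ≤ 1 := fun n =>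
    (P.valuation_le_one_iff _).mpr (intCast_mem P n)
  refine le_antisymm (hint m) ?_
  by_contra hcon
  push Not at hcon
  have hcop : IsCoprime (q : ℤ) m :=
    ((Nat.prime_iff_prime_int.mp hq).irreducible.coprime_iff_not_dvd).mpr hm
  obtain ⟨a, b, hab⟩ := hcop
  have h1 : (a : Ω) * (q : Ω) + (b : Ω) * (m : Ω) = 1 := by exact_mod_cast hab
  have h2 : P.valuation ((a : Ω) * (q : Ω) + (b : Ω) * (m : Ω)) < 1 := by
    refine Valuation.map_add_lt _ ?_ ?_
    · rw [_root_.map_mul]
      exact (mul_le_of_le_one_left' (hint a)).trans_lt hA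
    · rw [_root_.map_mul]
      exact (mul_le_of_le_one_left' (hint b)).trans_lt hcon
  rw [h1, _root_.map_one] at h2
  exact lt_irrefl _ h2

/-- **Inertia at `q` acts nontrivially on `W[2]` if `v_q(Δ)` is odd.** -/
theorem exists_inertia_ne_one (hΔ : W.Δ ≠ 0) {q : ℕ} (hq : q.Prime)
    (hodd : Odd (padicValInt q W.Δ)) {P : ValuationSubring Ω} (hP : P.LiesOverPrime q) :
    ∃ t ∈ P.inertiaSubgroupIn ℚ, rho2 W t ≠ 1 := by
  obtain ⟨δ, hδ0, hδ, h⟩ := exists_sqrt_disc (W := W) hΔ
  by_contra hc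
  push Not at hc
  have hfix : ∀ σ ∈ P.inertiaSubgroupIn ℚ, σ δ = δ := by
    intro σ hσ
    rcases h σ with h | h | h
    · exact h.2
    · exact absurd (hc σ hσ) h.1
    · exact h.2.2
  obtain ⟨k, hk⟩ := DR.InertiaValue.exists_zpow_of_inertia_fixed P hq hP hδ0 hfix
  have hA : P.valuation (q : Ω) < 1 := (P.mem_nonunits_iff).mp hP
  have hq0 : P.valuation (q : Ω) ≠ 0 :=
    (Valuation.ne_zero_iff _).mpr (by exact_mod_cast hq.ne_zero)
  -- decompose `Δ`
  have hfact : Fact q.Prime := ⟨hq⟩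
  obtain ⟨m, hnm, hm⟩ :=
    (Int.finiteMultiplicity_iff.mpr ⟨by simpa using hq.ne_one, hΔ⟩ :
        FiniteMultiplicity (q : ℤ) W.Δ).exists_eq_pow_mul_and_not_dvd
  have hmult : multiplicity (q : ℤ) W.Δ = padicValInt q W.Δ := by
    rw [padicValInt.of_ne_one_ne_zero hq.ne_one hΔ]
  rw [hmult] at hnm
  set r := padicValInt q W.Δ with hr
  have h1 : P.valuation (((W.Δ : ℤ) : Ω) * (q : Ω) ^ (2 * k)) = 1 := by
    rw [← hδ, mul_comm 2 k, zpow_mul, zpow_two, ← pow_two, ← mul_pow, map_pow, hk, one_pow]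
  have h2 : ((W.Δ : ℤ) : Ω) = (q : Ω) ^ r * (m : Ω) := by
    conv_lhs => rw [hnm]
    push_cast
    ring
  rw [h2, _root_.map_mul, _root_.map_mul, valuation_int_eq_one hq hP hm, mul_one, map_pow,
    map_zpow₀, ← zpow_natCast, ← zpow_add₀ hq0] at h1
  have h3 : (r : ℤ) + 2 * k = 0 := by
    by_contra hne
    rcases lt_or_gt_of_ne hne with h | h
    · obtain ⟨n, hn⟩ := Int.eq_ofNat_of_zero_le (by omega : 0 ≤ -((r : ℤ) + 2 * k))
      have hn0 : n ≠ 0 := by omega
      have h4 : P.valuation (q : Ω) ^ n = 1 := by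
        have : (r : ℤ) + 2 * k = -(n : ℤ) := by omega
        rw [this, zpow_neg, zpow_natCast, inv_eq_one] at h1
        exact h1
      exact absurd h4 (pow_lt_one₀ zero_le hA hn0).ne
    · obtain ⟨n, hn⟩ := Int.eq_ofNat_of_zero_le (by omega : 0 ≤ (r : ℤ) + 2 * k)
      have hn0 : n ≠ 0 := by omega
      rw [hn] at h1
      change P.valuation (q : Ω) ^ (n : ℤ) = 1 at h1
      rw [zpow_natCast] at h1
      exact absurd h1 (pow_lt_one₀ zero_le hA hn0).ne
  obtain ⟨j, hj⟩ := hodd
  omega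

theorem rho2_smooth (hΔ : W.Δ ≠ 0) : ∃ L : IntermediateField ℚ Ω, FiniteDimensional ℚ L ∧
    ∀ h : GQ, (∀ x ∈ L, h x = x) → rho2 W h = 1 := by
  have := EllTate.isElliptic_of_Δ_ne_zero hΔ
  exact EllTorsion.galoisRepModuleEnd_factorsThroughFiniteLevel (WQ W) two_ne_zero

/-- The standing hypotheses of block 2a. -/
theorem hyp {S : Finset ℕ} (hneg : W.Δ < 0) (hirr : W.ModRepIsIrreducible 2)
    (hS : ∀ ℓ : ℕ, ℓ ∈ S ↔ ℓ.Prime ∧ (ℓ : ℤ) ∣ W.Δ) (h2S : 2 ∈ S)
    (hodd : ∀ ℓ ∈ S, Odd (padicValInt ℓ W.Δ))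
    (hline : ∀ ℓ ∈ S, ∀ P : ValuationSubring Ω, P.LiesOverPrime ℓ →
      ∃ e : V2 W, e ≠ 0 ∧ ∀ g ∈ P.decompositionSubgroup ℚ, g • e = e) :
    Hyp (rho2 W) S where
  finrank_eq := finrank_V2 hneg.ne
  two_mem := h2S
  prime ℓ hℓ := ((hS ℓ).mp hℓ).1
  smooth := rho2_smooth hneg.ne
  surj := rho2_surj hneg hirr
  unram ℓ hℓ hℓS P hP g hg := by
    have hgood : W.IsGoodPrimeFor ℓ := fun h => hℓS ((hS ℓ).mpr ⟨hℓ, h⟩)
    have h2 : ¬ ℓ ∣ 2 := fun h => by
      have : ℓ = 2 := (Nat.prime_dvd_prime_iff_eq hℓ Nat.prime_two).mp h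
      exact hℓS (this ▸ h2S)
    ext1 x
    exact EllRed.galoisRepUnramifiedAt_of_good (K := Ω) W hℓ hgood h2 P hP g hg x
  ram ℓ hℓ P hP := ⟨exists_inertia_ne_one hneg.ne ((hS ℓ).mp hℓ).1 (hodd ℓ hℓ) hP,
    hline ℓ hℓ P hP⟩
  conj := rho2_conj_ne_one hneg

end Fermat.Agent.P2.Ell
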