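import Fermat.Agent.P2.Defs
import Fermat.Agent.P2.Ell.Mod2

/-!
# P2, block 8: the 2-adic representation of an integral Weierstrass model in matrix form
-/

set_option autoImplicit false

open WeierstrassCurve WeierstrassCurve.Affine WeierstrassCurve.Affine.Point

noncomputable section

namespace Fermat.Agent.P2.Ell

open Fermat.Agent.P2.Sel Fermat.Agent.P2 Fermat.Agent.Tate Fermat.Agent.EllTate

local notation "Ω" => AlgebraicClosure ℚ

variable {W : WeierstrassCurve ℤ} (hΔ : W.Δ ≠ 0)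

/-- a basis of the Tate module -/
def bT : Module.Basis (Fin 2) ℤ_[2] (tate W hΔ 2).V :=
  Module.finBasisOfFinrankEq ℤ_[2] (tate W hΔ 2).V (tate W hΔ 2).finrank_eq

/-- the matrix form of the 2-adic representation -/
def rhoT : GQ →* GL (Fin 2) ℤ_[2] :=
  ((LinearMap.toMatrixAlgEquiv (bT hΔ)).toMonoidHom.comp (tate W hΔ 2).ρ).toHomUnits

theorem rhoT_coe (g : GQ) : (rhoT hΔ g : Matrix (Fin 2) (Fin 2) ℤ_[2]) =
    LinearMap.toMatrix (bT hΔ) (bT hΔ) ((tate W hΔ 2).ρ g) := rfl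

theorem rhoT_sub_one_apply (g : GQ) (i j : Fin 2) :
    ((rhoT hΔ g : Matrix (Fin 2) (Fin 2) ℤ_[2]) - 1) i j =
      (bT hΔ).repr ((tate W hΔ 2).ρ g (bT hΔ j) - bT hΔ j) i := by
  rw [rhoT_coe, Matrix.sub_apply, LinearMap.toMatrix_apply, _root_.map_sub, Finsupp.sub_apply,
    Module.Basis.repr_self, Finsupp.single_apply, Matrix.one_apply]
  simp only [eq_comm]

theorem det_rhoT (g : GQ) : (rhoT hΔ g : Matrix (Fin 2) (Fin 2) ℤ_[2]).det =
    LinearMap.det ((tate W hΔ 2).ρ g) := by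
  rw [rhoT_coe, LinearMap.det_toMatrix]

theorem trace_rhoT (g : GQ) : (rhoT hΔ g : Matrix (Fin 2) (Fin 2) ℤ_[2]).trace =
    LinearMap.trace _ _ ((tate W hΔ 2).ρ g) := by
  rw [rhoT_coe, LinearMap.trace_eq_matrix_trace _ (bT hΔ)]

theorem cont (n : ℕ) : ∃ L : IntermediateField ℚ Ω, FiniteDimensional ℚ L ∧
    ∀ h : GQ, (∀ x ∈ L, h x = x) → ∀ i j, (2 : ℤ_[2]) ^ n ∣
      ((rhoT hΔ h : Matrix (Fin 2) (Fin 2) ℤ_[2]) - 1) i j := by
  obtain ⟨L, hL, h⟩ := (tate W hΔ 2).isAdicContinuous n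
  refine ⟨L, hL, fun σ hσ i j => ?_⟩
  rw [rhoT_sub_one_apply]
  have h1 := repr_mem_of_mem_smul_top (bT hΔ) _ (h σ hσ (bT hΔ j)) i
  rw [PadicInt.maximalIdeal_eq_span_p, Ideal.span_singleton_pow, Ideal.mem_span_singleton] at h1
  exact_mod_cast h1

theorem cyc : IsCyc2 fun g => (rhoT hΔ g : Matrix (Fin 2) (Fin 2) ℤ_[2]).det := by
  intro n g b hb
  have h := (tate_detIsCyclotomic hΔ (p := 2)).2 n g b hb
  rw [Ideal.mem_span_singleton] at h
  change (2 : ℤ_[2]) ^ n ∣ (rhoT hΔ g : Matrix (Fin 2) (Fin 2) ℤ_[2]).det - b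
  rw [det_rhoT]
  exact_mod_cast h

theorem unram {ℓ : ℕ} (hℓ : ℓ.Prime) (hℓS : ℓ ∉ badSet W) (h2 : 2 ∈ badSet W)
    {P : ValuationSubring Ω} (hP : P.LiesOverPrime ℓ) (g : GQ) (hg : g ∈ P.inertiaSubgroupIn ℚ) :
    rhoT hΔ g = 1 := by
  have hgood : W.IsGoodPrimeFor ℓ := fun h => hℓS (Nat.mem_primeFactors.mpr
    ⟨hℓ, Int.natCast_dvd.mp h, Int.natAbs_ne_zero.mpr hΔ⟩)
  have h := tate_isUnramifiedAt hΔ (p := 2) hℓ (fun h => hℓS (h ▸ h2)) hgood P hP g hg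
  apply Units.ext
  rw [rhoT_coe, h, LinearMap.toMatrix_one]
  rfl

theorem trace_frob {ℓ : ℕ} (hℓ : ℓ.Prime) (hℓS : ℓ ∉ badSet W) (h2 : 2 ∈ badSet W)
    {P : ValuationSubring Ω} (hP : P.LiesOverPrime ℓ) {φ : GQ} (hφ : P.IsFrobeniusAt φ ℓ) :
    (rhoT hΔ φ : Matrix (Fin 2) (Fin 2) ℤ_[2]).trace = (W.apOfModel ℓ : ℤ) := by
  have hgood : W.IsGoodPrimeFor ℓ := fun h => hℓS (Nat.mem_primeFactors.mpr
    ⟨hℓ, Int.natCast_dvd.mp h, Int.natAbs_ne_zero.mpr hΔ⟩)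
  have h := tate_charpoly_frob hΔ (p := 2) hℓ (fun h => hℓS (h ▸ h2)) hgood P hP hφ
  rw [BN2.charpoly_eq_of_finrank_two (tate W hΔ 2).finrank_eq] at h
  have h1 := congrArg (fun P => P.coeff 1) h
  rw [trace_rhoT]
  simpa [Polynomial.coeff_C, Polynomial.coeff_X] using h1

/-- the reduced basis of `W[2]` -/
def b2 : Module.Basis (Fin 2) (ZMod 2) (V2 W) :=
  haveI := isElliptic_of_Δ_ne_zero hΔ
  (isRed_projOne (W := WQ W) (p := 2)).basis (bT hΔ)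

theorem map_rhoT (g : GQ) : (rhoT hΔ g : Matrix (Fin 2) (Fin 2) ℤ_[2]).map PadicInt.toZMod =
    LinearMap.toMatrix (b2 hΔ) (b2 hΔ) (rho2 W g) := by
  have := isElliptic_of_Δ_ne_zero hΔ
  exact ((isRed_projOne (W := WQ W) (p := 2)).toMatrix (bT hΔ) ((tate W hΔ 2).ρ g)
    (rho2 W g) (fun x => rfl)).symm

theorem map_rhoT_eq_one_iff (g : GQ) :
    (rhoT hΔ g : Matrix (Fin 2) (Fin 2) ℤ_[2]).map PadicInt.toZMod = 1 ↔ rho2 W g = 1 := by
  rw [map_rhoT, ← LinearMap.toMatrix_one (b2 hΔ)]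
  exact (LinearMap.toMatrix (b2 hΔ) (b2 hΔ)).injective.eq_iff

theorem map_sub_one (g : GQ) (i j : Fin 2) :
    PadicInt.toZMod (((rhoT hΔ g : Matrix (Fin 2) (Fin 2) ℤ_[2]) - 1) i j) =
      ((rhoT hΔ g : Matrix (Fin 2) (Fin 2) ℤ_[2]).map PadicInt.toZMod - 1) i j := by
  rw [Matrix.sub_apply, Matrix.sub_apply, Matrix.map_apply, _root_.map_sub, Matrix.one_apply,
    Matrix.one_apply]
  split_ifs <;> simp

theorem exists_not_dvd {g : GQ} (hg : rho2 W g ≠ 1) : ∃ i j, ¬ (2 : ℤ_[2]) ∣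
      ((rhoT hΔ g : Matrix (Fin 2) (Fin 2) ℤ_[2]) - 1) i j := by
  by_contra hc
  push Not at hc
  apply hg
  rw [← map_rhoT_eq_one_iff hΔ, ← sub_eq_zero]
  ext i j
  rw [← map_sub_one]
  obtain ⟨c, hc⟩ := hc i j
  rw [hc, _root_.map_mul]
  have : PadicInt.toZMod (2 : ℤ_[2]) = (0 : ZMod 2) := by
    rw [map_ofNat]; rfl
  rw [this, zero_mul]
  rfl

theorem surj_mod_two (hneg : W.Δ < 0) (hirr : W.ModRepIsIrreducible 2)
    (B : GL (Fin 2) (ZMod 2)) : ∃ g : GQ, ∀ i j,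
    PadicInt.toZMod ((rhoT hΔ g : Matrix (Fin 2) (Fin 2) ℤ_[2]) i j) =
      (B : Matrix (Fin 2) (Fin 2) (ZMod 2)) i j := by
  have hB : IsUnit (B : Matrix (Fin 2) (Fin 2) (ZMod 2)).det :=
    (Matrix.isUnit_iff_isUnit_det _).mp B.isUnit
  obtain ⟨g, hg⟩ := rho2_surj hneg hirr (Matrix.toLinearEquiv (b2 hΔ) _ hB)
  refine ⟨g, fun i j => ?_⟩
  have h := map_rhoT hΔ g
  rw [hg] at h
  have h2 : (Matrix.toLinearEquiv (b2 hΔ) (B : Matrix (Fin 2) (Fin 2) (ZMod 2)) hB).toLinearMap =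
      Matrix.toLin (b2 hΔ) (b2 hΔ) (B : Matrix (Fin 2) (Fin 2) (ZMod 2)) := rfl
  rw [h2, LinearMap.toMatrix_toLin] at h
  exact congrFun (congrFun h i) j

/-- `Δ = -∏ S · m²` -/
theorem exists_disc_eq (hneg : W.Δ < 0)
    (hodd : ∀ q : ℕ, q.Prime → (q : ℤ) ∣ W.Δ → Odd (padicValInt q W.Δ)) :
    ∃ m : ℕ, m ≠ 0 ∧ W.Δ = -(((∏ q ∈ badSet W, q : ℕ) : ℤ) * (m : ℤ) ^ 2) := by
  have h0 : W.Δ.natAbs ≠ 0 := Int.natAbs_ne_zero.mpr hneg.ne
  have h1 : W.Δ.natAbs = ∏ q ∈ badSet W, q ^ (W.Δ.natAbs.factorization q) := by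
    conv_lhs => rw [← Nat.prod_factorization_pow_eq_self h0]
    rfl
  have h2 : ∀ q ∈ badSet W, ∃ k, W.Δ.natAbs.factorization q = 2 * k + 1 := by
    intro q hq
    have hqp := Nat.prime_of_mem_primeFactors hq
    have hqd := Nat.dvd_of_mem_primeFactors hq
    have h3 := hodd q hqp (Int.natCast_dvd.mpr hqd)
    obtain ⟨k, hk⟩ := h3
    refine ⟨k, ?_⟩
    rw [← hk, Nat.factorization_def _ hqp]
    rfl
  choose! k hk using h2
  refine ⟨∏ q ∈ badSet W, q ^ k q, ?_, ?_⟩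
  · rw [Finset.prod_ne_zero_iff]
    intro q hq
    exact pow_ne_zero _ (Nat.prime_of_mem_primeFactors hq).ne_zero
  · have h3 : W.Δ = -(W.Δ.natAbs : ℤ) := by omega
    rw [h3, h1]
    rw [← Nat.cast_pow, ← Nat.cast_mul, ← Finset.prod_pow, ← Finset.prod_mul_distrib]
    congr 2
    refine Finset.prod_congr rfl fun q hq => ?_
    rw [hk q hq]
    ring

theorem det_map_rhoT (g : GQ) :
    ((rhoT hΔ g : Matrix (Fin 2) (Fin 2) ℤ_[2]).map PadicInt.toZMod).det = 1 := by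
  have h : IsUnit ((rhoT hΔ g : Matrix (Fin 2) (Fin 2) ℤ_[2]).map
      (PadicInt.toZMod (p := 2))).det := by
    have h1 : IsUnit (rhoT hΔ g : Matrix (Fin 2) (Fin 2) ℤ_[2]).det :=
      (Matrix.isUnit_iff_isUnit_det _).mp (rhoT hΔ g).isUnit
    have h2 := h1.map (PadicInt.toZMod (p := 2))
    rwa [RingHom.map_det] at h2
  have key : ∀ x : ZMod 2, IsUnit x → x = 1 := by
    intro x hx
    have h0 := hx.ne_zero
    revert x
    decide
  exact key _ h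

theorem mat_dec : ∀ M : Matrix (Fin 2) (Fin 2) (ZMod 2), M.det = 1 →
    ((M * M = 1 ∧ M ≠ 1) → M.trace ≠ 1) ∧ (M * M ≠ 1 → M.trace = 1) := by
  decide

/-- The discriminant field is `ℚ(√-∏ S)`. -/
theorem disc (hneg : W.Δ < 0)
    (hodd : ∀ q : ℕ, q.Prime → (q : ℤ) ∣ W.Δ → Odd (padicValInt q W.Δ)) (r : Ω)
    (hr : r ^ 2 = -((∏ q ∈ badSet W, q : ℕ) : Ω)) (g : GQ) : g r = r ↔
    ((∀ i j, PadicInt.toZMod (((rhoT hneg.ne g : Matrix (Fin 2) (Fin 2) ℤ_[2]) - 1) i j) = 0) ∨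
      PadicInt.toZMod ((rhoT hneg.ne g : Matrix (Fin 2) (Fin 2) ℤ_[2]).trace) = 1) := by
  obtain ⟨δ, hδ0, hδ, h⟩ := exists_sqrt_disc (W := W) hneg.ne
  obtain ⟨m, hm0, hm⟩ := exists_disc_eq hneg hodd
  have hmΩ : (m : Ω) ≠ 0 := Nat.cast_ne_zero.mpr hm0
  have h1 : δ ^ 2 = ((m : Ω) * r) ^ 2 := by
    rw [hδ, hm, mul_pow, hr]
    push_cast
    ring
  have hδr : g δ = δ ↔ g r = r := by
    have hgm : g (m : Ω) = (m : Ω) := map_natCast g m
    rcases sq_eq_sq_iff_eq_or_eq_neg.mp h1 with h2 | h2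
    · rw [h2, _root_.map_mul, hgm]
      exact mul_right_inj' hmΩ
    · rw [h2, _root_.map_neg, _root_.map_mul, hgm, neg_inj]
      exact mul_right_inj' hmΩ
  rw [← hδr]
  -- the matrix modulo 2
  set M := (rhoT hneg.ne g : Matrix (Fin 2) (Fin 2) ℤ_[2]).map (PadicInt.toZMod (p := 2)) with hM
  have e1 : (∀ i j, PadicInt.toZMod (((rhoT hneg.ne g : Matrix (Fin 2) (Fin 2) ℤ_[2]) - 1) i j) = 0)
      ↔ M = 1 := by
    rw [← sub_eq_zero, ← Matrix.ext_iff]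
    exact forall_congr' fun i => forall_congr' fun j => by rw [map_sub_one]; rfl
  have e2 : PadicInt.toZMod ((rhoT hneg.ne g : Matrix (Fin 2) (Fin 2) ℤ_[2]).trace) = M.trace := by
    rw [hM, ← AddMonoidHom.map_trace]
  rw [e1, e2]
  have hmat := mat_dec M (det_map_rhoT hneg.ne g)
  have k1 : M = 1 ↔ rho2 W g = 1 := map_rhoT_eq_one_iff hneg.ne g
  have k2 : M * M = 1 ↔ rho2 W g * rho2 W g = 1 := by
    rw [hM, map_rhoT, ← LinearMap.toMatrix_mul, ← LinearMap.toMatrix_one (b2 hneg.ne)]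
    exact (LinearMap.toMatrix (b2 hneg.ne) (b2 hneg.ne)).injective.eq_iff
  have hδδ : - δ ≠ δ := by
    intro h3
    have h4 : (2 : Ω) * δ = 0 := by linear_combination -h3
    rcases mul_eq_zero.mp h4 with h5 | h5
    · exact two_ne h5
    · exact hδ0 h5
  rcases h g with ⟨a1, a2⟩ | ⟨a1, a2, a3⟩ | ⟨a1, a2, a3⟩
  · exact ⟨fun _ => Or.inl (k1.mpr a1), fun _ => a2⟩
  · constructor
    · intro h3
      rw [a3] at h3
      exact absurd h3 hδδ
    · rintro (h3 | h3)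
      · exact absurd (k1.mp h3) a1
      · exact absurd h3 (hmat.1 ⟨k2.mpr a2, fun h4 => a1 (k1.mp h4)⟩)
  · exact ⟨fun _ => Or.inr (hmat.2 fun h4 => a1 (k2.mp h4)), fun _ => a3⟩

/-- the projection `T_2 W → W[2^n]` -/
def projT (n : ℕ) : (tate W hΔ 2).V →+ Submodule.torsionBy ℤ (Pt W) (2 ^ n : ℕ) :=
  haveI := isElliptic_of_Δ_ne_zero hΔ
  proj (W := WQ W) (p := 2) n

theorem projT_ρ (n : ℕ) (g : GQ) (v : (tate W hΔ 2).V) :
    projT hΔ n ((tate W hΔ 2).ρ g v) = g • projT hΔ n v := rfl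

theorem projT_smul (n : ℕ) (a : ℤ_[2]) (v : (tate W hΔ 2).V) :
    projT hΔ n (a • v) = PadicInt.toZModPow n a • projT hΔ n v := by
  have := isElliptic_of_Δ_ne_zero hΔ
  exact proj_smul (W := WQ W) (p := 2) n a v

theorem projT_ext {v w : (tate W hΔ 2).V} (h : ∀ n, projT hΔ n v = projT hΔ n w) : v = w := by
  have := isElliptic_of_Δ_ne_zero hΔ
  exact ext_proj (W := WQ W) (p := 2) h

/-- The Steinberg relation on torsion points, at the prime `q`, with sign `s`. -/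
def StPts (W : WeierstrassCurve ℤ) (q : ℕ) (s : ℤ) : Prop :=
  ∀ P : ValuationSubring Ω, P.LiesOverPrime q → ∀ n : ℕ, ∀ g ∈ P.decompositionSubgroup ℚ,
    ∀ h ∈ P.decompositionSubgroup ℚ, ∀ b : ℕ, (∀ μ : Ω, μ ^ 2 ^ n = 1 → g μ = μ ^ b) →
    ∀ x : Pt W, 2 ^ n • x = 0 →
      g • (h • x - eta P q s h • x) = (eta P q s g * b) • (h • x - eta P q s h • x)

theorem eta_cast {A B : Type*} [CommRing A] [CommRing B] (φ : A →+* B) (P : ValuationSubring Ω)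
    (q : ℕ) (e : A) (g : GQ) : φ (eta P q e g) = eta P q (φ e) g := by
  unfold eta
  split_ifs
  · rfl
  · exact map_one φ

theorem st {q : ℕ} {s : ℤ} (hst : StPts W q s) {P : ValuationSubring Ω} (hP : P.LiesOverPrime q) :
    StRel P q (s : ℤ_[2]) (fun g => (rhoT hΔ g : Matrix (Fin 2) (Fin 2) ℤ_[2]).det)
      (fun g => (rhoT hΔ g : Matrix (Fin 2) (Fin 2) ℤ_[2])) := by
  intro g hg h hh
  have := isElliptic_of_Δ_ne_zero hΔ
  -- reduce to an identity of linear maps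
  have hc : ∀ e : ℤ_[2], algebraMap ℤ_[2] (Matrix (Fin 2) (Fin 2) ℤ_[2]) e =
      LinearMap.toMatrix (bT hΔ) (bT hΔ) (algebraMap ℤ_[2] (Module.End ℤ_[2] (tate W hΔ 2).V) e) := by
    intro e
    rw [Algebra.algebraMap_eq_smul_one, Algebra.algebraMap_eq_smul_one, _root_.map_smul,
      LinearMap.toMatrix_one]
  have key : ((tate W hΔ 2).ρ g - algebraMap ℤ_[2] (Module.End ℤ_[2] (tate W hΔ 2).V)
        (eta P q (s : ℤ_[2]) g * (rhoT hΔ g : Matrix (Fin 2) (Fin 2) ℤ_[2]).det)) *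
      ((tate W hΔ 2).ρ h - algebraMap ℤ_[2] (Module.End ℤ_[2] (tate W hΔ 2).V)
        (eta P q (s : ℤ_[2]) h)) = 0 := by
    refine LinearMap.ext fun v => ?_
    refine projT_ext hΔ fun n => ?_
    obtain ⟨b, hb⟩ : ∃ b : ℕ, ∀ μ : Ω, μ ^ 2 ^ n = 1 → g μ = μ ^ b := by
      have : NeZero (2 ^ n) := ⟨pow_ne_zero n two_ne_zero⟩
      exact ⟨_, fun μ hμ => Cyclotomic.cyc_spec (2 ^ n) g hμ⟩
    have ec : ∀ g' : GQ, eta P q (s : ℤ_[2]) g' = ((eta P q s g' : ℤ) : ℤ_[2]) := fun g' =>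
      (eta_cast (Int.castRingHom ℤ_[2]) P q s g').symm
    -- the second factor
    set y : (tate W hΔ 2).V := (tate W hΔ 2).ρ h v - (eta P q s h : ℤ) • v with hy
    have hyv : ((tate W hΔ 2).ρ h - algebraMap ℤ_[2] (Module.End ℤ_[2] (tate W hΔ 2).V)
        (eta P q (s : ℤ_[2]) h)) v = y := by
      rw [LinearMap.sub_apply, Module.algebraMap_end_apply, ec, Int.cast_smul_eq_zsmul]
    set x := projT hΔ n v with hx
    have hpy : projT hΔ n y = h • x - (eta P q s h : ℤ) • x := by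
      rw [hy, _root_.map_sub, map_zsmul, projT_ρ]
    have hd : PadicInt.toZModPow n (rhoT hΔ g : Matrix (Fin 2) (Fin 2) ℤ_[2]).det =
        ((b : ℤ) : ZMod (2 ^ n)) := by
      obtain ⟨c, hc⟩ := cyc hΔ n g b hb
      have h1 := congrArg (PadicInt.toZModPow (p := 2) n) hc
      rw [_root_.map_sub, _root_.map_mul, map_pow, map_ofNat, map_natCast] at h1
      have h2 : (2 : ZMod (2 ^ n)) ^ n = 0 := by
        have := ZMod.natCast_self (2 ^ n)
        push_cast at this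
        exact this
      rw [h2, zero_mul, sub_eq_zero] at h1
      rw [h1]
      push_cast
      rfl
    rw [Module.End.mul_apply, hyv, LinearMap.sub_apply, Module.algebraMap_end_apply,
      _root_.map_sub, projT_smul, _root_.map_mul, hd, ec, map_intCast, ← Int.cast_mul,
      Int.cast_smul_eq_zsmul, projT_ρ, hpy, LinearMap.zero_apply, _root_.map_zero]
    have hx2 : 2 ^ n • (x : Pt W) = 0 := by
      have := (Submodule.mem_torsionBy_iff (((2 ^ n : ℕ)) : ℤ) x.1).1 x.2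
      rwa [Nat.cast_smul_eq_nsmul] at this
    have h4 := hst P hP n g hg h hh b hb x hx2
    rw [sub_eq_zero]
    exact Subtype.ext h4
  have key2 := congrArg (LinearMap.toMatrix (bT hΔ) (bT hΔ)) key
  rw [LinearMap.toMatrix_mul, _root_.map_sub, _root_.map_sub, ← hc, ← hc, _root_.map_zero] at key2
  exact key2

end Fermat.Agent.P2.Ell
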