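import Fermat.Agent.EllTorsion.Torsion

/-!
# P2, block 8: points of order two

For a Weierstrass curve over a field of characteristic `≠ 2` and two independent points `P`, `Q`
of order two, `del P Q = 4 (x_P - x_Q) (x_P - x_{P+Q}) (x_Q - x_{P+Q})` is a square root of `Δ`.
-/

set_option autoImplicit false

open WeierstrassCurve WeierstrassCurve.Affine WeierstrassCurve.Affine.Point

namespace Fermat.Agent.P2.Ell

section general

variable {F : Type*} [Field F] [DecidableEq F] {W : Affine F}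

/-- the `x`-coordinate of a point (`0` at infinity) -/
def xc : W.Point → F
  | 0 => 0
  | Point.some x _ _ => x

omit [DecidableEq F] in
@[simp] theorem xc_some {x y : F} (h : W.Nonsingular x y) : xc (Point.some x y h) = x := rfl

theorem exists_coords {P : W.Point} (h0 : P ≠ 0) (h2 : P + P = 0) :
    ∃ (x y : F) (h : W.Nonsingular x y), P = Point.some x y h ∧ 2 * y + W.a₁ * x + W.a₃ = 0 := by
  rcases P with _ | ⟨x, y, h⟩
  · exact absurd rfl h0
  · refine ⟨x, y, h, rfl, ?_⟩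
    have h3 : Point.some x y h = -Point.some x y h := eq_neg_of_add_eq_zero_left h2
    rw [Point.neg_some] at h3
    have h4 : y = W.negY x y := by
      have := (Point.some.injEq _ _ _ _ _ _).mp h3
      exact this.2
    rw [negY] at h4
    linear_combination h4

theorem cubic_xc {P : W.Point} (h0 : P ≠ 0) (h2 : P + P = 0) :
    4 * xc P ^ 3 + W.b₂ * xc P ^ 2 + 2 * W.b₄ * xc P + W.b₆ = 0 := by
  obtain ⟨x, y, h, rfl, hy⟩ := exists_coords h0 h2
  have he := (equation_iff x y).mp h.1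
  rw [xc_some, b₂, b₄, b₆]
  linear_combination (-4 : F) * he + (2 * y + W.a₁ * x + W.a₃) * hy

theorem xc_inj (h2F : (2 : F) ≠ 0) {P Q : W.Point} (hP0 : P ≠ 0) (hP2 : P + P = 0) (hQ0 : Q ≠ 0)
    (hQ2 : Q + Q = 0) (h : xc P = xc Q) : P = Q := by
  obtain ⟨x, y, hxy, rfl, hy⟩ := exists_coords hP0 hP2
  obtain ⟨x', y', hxy', rfl, hy'⟩ := exists_coords hQ0 hQ2
  rw [xc_some, xc_some] at h
  subst h
  have : y = y' := by
    apply mul_left_cancel₀ h2F
    linear_combination hy - hy'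
  subst this
  rfl

/-- the square root of the discriminant -/
def del (P Q : W.Point) : F :=
  4 * ((xc P - xc Q) * (xc P - xc (P + Q)) * (xc Q - xc (P + Q)))

theorem del_swap (P Q : W.Point) : del Q P = - del P Q := by
  rw [del, del, add_comm Q P]; ring

theorem add_ne {P Q : W.Point} (hQ2 : Q + Q = 0) (hPQ : P ≠ Q) : P + Q ≠ 0 := by
  intro h
  apply hPQ
  rw [← add_right_cancel_iff (a := Q), h, hQ2]

theorem del_sq (h2F : (2 : F) ≠ 0) {P Q : W.Point} (hP0 : P ≠ 0) (hP2 : P + P = 0) (hQ0 : Q ≠ 0)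
    (hQ2 : Q + Q = 0) (hPQ : P ≠ Q) : del P Q ^ 2 = WeierstrassCurve.Δ W := by
  have hR0 : P + Q ≠ 0 := add_ne hQ2 hPQ
  have hR2 : (P + Q) + (P + Q) = 0 := by
    rw [add_add_add_comm, hP2, hQ2, add_zero]
  have c1 := cubic_xc hP0 hP2
  have c2 := cubic_xc hQ0 hQ2
  have c3 := cubic_xc hR0 hR2
  have n12 : xc P - xc Q ≠ 0 := sub_ne_zero.mpr fun h => hPQ (xc_inj h2F hP0 hP2 hQ0 hQ2 h)
  have n13 : xc P - xc (P + Q) ≠ 0 := sub_ne_zero.mpr fun h => by
    have := xc_inj h2F hP0 hP2 hR0 hR2 h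
    exact hQ0 (by simpa using this)
  have n23 : xc Q - xc (P + Q) ≠ 0 := sub_ne_zero.mpr fun h => by
    have := xc_inj h2F hQ0 hQ2 hR0 hR2 h
    exact hP0 (by simpa using this)
  rw [del]
  generalize xc P = x₁ at *
  generalize xc Q = x₂ at *
  generalize xc (P + Q) = x₃ at *
  -- coefficients
  set s1 := x₁ + x₂ + x₃ with hs1
  set s2 := x₁ * x₂ + x₁ * x₃ + x₂ * x₃ with hs2
  set s3 := x₁ * x₂ * x₃ with hs3
  have d1 : (W.b₂ + 4 * s1) * x₁ ^ 2 + (2 * W.b₄ - 4 * s2) * x₁ + (W.b₆ + 4 * s3) = 0 := by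
    rw [hs1, hs2, hs3]; linear_combination c1
  have d2 : (W.b₂ + 4 * s1) * x₂ ^ 2 + (2 * W.b₄ - 4 * s2) * x₂ + (W.b₆ + 4 * s3) = 0 := by
    rw [hs1, hs2, hs3]; linear_combination c2
  have d3 : (W.b₂ + 4 * s1) * x₃ ^ 2 + (2 * W.b₄ - 4 * s2) * x₃ + (W.b₆ + 4 * s3) = 0 := by
    rw [hs1, hs2, hs3]; linear_combination c3
  have e1 : (W.b₂ + 4 * s1) * (x₁ + x₂) + (2 * W.b₄ - 4 * s2) = 0 := by
    apply mul_left_cancel₀ n12
    linear_combination d1 - d2
  have e2 : (W.b₂ + 4 * s1) * (x₁ + x₃) + (2 * W.b₄ - 4 * s2) = 0 := by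
    apply mul_left_cancel₀ n13
    linear_combination d1 - d3
  have f1 : W.b₂ + 4 * s1 = 0 := by
    apply mul_left_cancel₀ n23
    linear_combination e1 - e2
  have f2 : 2 * W.b₄ - 4 * s2 = 0 := by rw [f1] at e1; linear_combination e1
  have f3 : W.b₆ + 4 * s3 = 0 := by rw [f1, f2] at d1; linear_combination d1
  have g1 : W.b₂ = -4 * s1 := by linear_combination f1
  have g2 : W.b₄ = 2 * s2 := by
    apply mul_left_cancel₀ h2F
    linear_combination f2
  have g3 : W.b₆ = -4 * s3 := by linear_combination f3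
  have g4 : W.b₈ = 4 * s1 * s3 - s2 ^ 2 := by
    have h4 : (4 : F) ≠ 0 := by
      have : (4 : F) = 2 * 2 := by norm_num
      rw [this]; exact mul_ne_zero h2F h2F
    apply mul_left_cancel₀ h4
    have := W.b_relation
    rw [g1, g2, g3] at this
    linear_combination this
  rw [WeierstrassCurve.Δ, g1, g2, g3, g4, hs1, hs2, hs3]
  ring

end general

section galois

variable {R : Type*} {S : Type*} {K : Type*} [CommRing R] [CommRing S]
    [Field K] [DecidableEq K] {W' : Affine R} [Algebra R S] [Algebra R K] [Algebra S K]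
    [IsScalarTower R S K]

theorem xc_smul (σ : K ≃ₐ[S] K) (P : (W'⁄K).Point) : xc (σ • P) = σ (xc P) := by
  rcases P with _ | ⟨x, y, h⟩
  · exact (map_zero σ).symm
  · rw [algEquiv_smul_def, Point.map_some]
    rfl

theorem del_smul (σ : K ≃ₐ[S] K) (P Q : (W'⁄K).Point) :
    del (σ • P) (σ • Q) = σ (del P Q) := by
  rw [del, del, ← smul_add, xc_smul, xc_smul, xc_smul]
  simp only [map_mul, map_sub, map_ofNat]

end galois

end Fermat.Agent.P2.Ell
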